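import Mathlib
import Fermat.Prelude.Def_ModularCurve_ArithmeticGalois
import Fermat.Prelude.Def_ModularCurve_X0ModL

/-!
# ES (copy of S24 with constant field `ℂ`) : generators of the modular function field `ℚ̄(j(q^d) : d ∣ N)` and an induction principle
-/

set_option autoImplicit false

namespace Fermat.Agent.ES.C

open ModularCurve

/-- The constant field `ℂ`. -/
abbrev Kb : Type := ℂ

/-- `ℂ(j(q^d) : d ∣ N) ⊆ ℂ((q))`. -/
noncomputable abbrev mffC (N : ℕ) : IntermediateField ℂ (LaurentSeries ℂ) :=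
  laurentBaseChange ℂ (modularFunctionFieldFull N)

/-- The modular function field `ℚ̄(j(q^d) : d ∣ N) ⊆ ℚ̄((q))`. -/
abbrev FF (N : ℕ) : Type := ↥(mffC N)

/-- `j(q^d)` as a Laurent series over `ℚ̄`. -/
noncomputable def jdL (d : ℕ) [NeZero d] : LaurentSeries Kb := coeffEmb Kb (qExpand ℚ d jq)

theorem jdL_mem {N d : ℕ} [NeZero d] (hd : d ∣ N) : jdL d ∈ mffC N :=
  coeffEmb_mem_laurentBaseChange Kb (jqd_mem_full N hd)

/-- `j(q^d)` as an element of the modular function field of level `N`, `d ∣ N`. -/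
noncomputable def jd (N d : ℕ) [NeZero d] (hd : d ∣ N) : FF N := ⟨jdL d, jdL_mem hd⟩

@[simp] theorem coe_jd (N d : ℕ) [NeZero d] (hd : d ∣ N) :
    ((jd N d hd : FF N) : LaurentSeries Kb) = jdL d := rfl

/-- `j(q)` as an element of the modular function field. -/
noncomputable def jF (N : ℕ) : FF N := jd N 1 (one_dvd N)

theorem coe_jF (N : ℕ) : ((jF N : FF N) : LaurentSeries Kb) = coeffEmb Kb jq := by
  rw [jF, coe_jd, jdL, qExpand_one_apply]

/-- Induction principle for the modular function field. -/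
theorem FF_induction (N : ℕ) {P : FF N → Prop}
    (hc : ∀ a : Kb, P (algebraMap Kb (FF N) a))
    (hj : ∀ (d : ℕ) [NeZero d] (hd : d ∣ N), P (jd N d hd))
    (hadd : ∀ x y, P x → P y → P (x + y))
    (hneg : ∀ x, P x → P (-x))
    (hmul : ∀ x y, P x → P y → P (x * y))
    (hinv : ∀ x, P x → P x⁻¹) (x : FF N) : P x := by
  have h1 : P 1 := by simpa using hc 1
  -- first the elements coming from `ℚ((q))`
  have key : ∀ z : LaurentSeries ℚ, z ∈ modularFunctionFieldFull N →
      ∃ h : coeffEmb Kb z ∈ mffC N, P ⟨coeffEmb Kb z, h⟩ := by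
    intro z hz
    have hz' : z ∈ Subfield.closure
        (Set.range (algebraMap ℚ (LaurentSeries ℚ)) ∪ divisorExpansions N) := hz
    induction hz' using Subfield.closure_induction with
    | mem y hy =>
      rcases hy with ⟨a, rfl⟩ | ⟨d, hne, hd, rfl⟩
      · have e : coeffEmb Kb (algebraMap ℚ (LaurentSeries ℚ) a)
            = algebraMap Kb (LaurentSeries Kb) (algebraMap ℚ Kb a) := by
          rw [algebraMap_laurentSeries_eq_single, algebraMap_laurentSeries_eq_single, coeffEmb,
            coeffMap_single]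
        refine ⟨e ▸ (mffC N).algebraMap_mem _, ?_⟩
        have := hc (algebraMap ℚ Kb a)
        convert this using 1
        exact Subtype.ext e
      · exact ⟨jdL_mem hd, hj d hd⟩
    | one => exact ⟨by rw [map_one]; exact one_mem _, by
        convert h1 using 1
        exact Subtype.ext (map_one _)⟩
    | add a b _ _ ha hb =>
      obtain ⟨ha1, ha2⟩ := ha (by assumption)
      obtain ⟨hb1, hb2⟩ := hb (by assumption)
      refine ⟨by rw [map_add]; exact add_mem ha1 hb1, ?_⟩
      convert hadd _ _ ha2 hb2 using 1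
      exact Subtype.ext (map_add _ _ _)
    | neg a _ ha =>
      obtain ⟨ha1, ha2⟩ := ha (by assumption)
      refine ⟨by rw [map_neg]; exact neg_mem ha1, ?_⟩
      convert hneg _ ha2 using 1
      exact Subtype.ext (map_neg _ _)
    | inv a _ ha =>
      obtain ⟨ha1, ha2⟩ := ha (by assumption)
      refine ⟨by rw [map_inv₀]; exact inv_mem ha1, ?_⟩
      convert hinv _ ha2 using 1
      exact Subtype.ext (map_inv₀ _ _)
    | mul a b _ _ ha hb =>
      obtain ⟨ha1, ha2⟩ := ha (by assumption)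
      obtain ⟨hb1, hb2⟩ := hb (by assumption)
      refine ⟨by rw [map_mul]; exact mul_mem ha1 hb1, ?_⟩
      convert hmul _ _ ha2 hb2 using 1
      exact Subtype.ext (map_mul _ _ _)
  obtain ⟨x, hx⟩ := x
  have hx' := mem_laurentBaseChange_iff.mp hx
  suffices ∃ h : x ∈ mffC N, P ⟨x, h⟩ from this.2
  clear hx
  induction hx' using Subfield.closure_induction with
  | mem y hy =>
    rcases hy with ⟨a, rfl⟩ | ⟨z, hz, rfl⟩
    · exact ⟨(mffC N).algebraMap_mem _, hc a⟩
    · exact key z hz
  | one => exact ⟨one_mem _, h1⟩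
  | add a b _ _ ha hb =>
    obtain ⟨ha1, ha2⟩ := ha
    obtain ⟨hb1, hb2⟩ := hb
    refine ⟨add_mem ha1 hb1, ?_⟩
    have e : (⟨a + b, add_mem ha1 hb1⟩ : FF N) = ⟨a, ha1⟩ + ⟨b, hb1⟩ := Subtype.ext rfl
    rw [e]; exact hadd _ _ ha2 hb2
  | neg a _ ha =>
    obtain ⟨ha1, ha2⟩ := ha
    refine ⟨neg_mem ha1, ?_⟩
    have e : (⟨-a, neg_mem ha1⟩ : FF N) = -⟨a, ha1⟩ := Subtype.ext rfl
    rw [e]; exact hneg _ ha2
  | inv a _ ha =>
    obtain ⟨ha1, ha2⟩ := ha
    refine ⟨inv_mem ha1, ?_⟩
    have e : (⟨a⁻¹, inv_mem ha1⟩ : FF N) = (⟨a, ha1⟩ : FF N)⁻¹ := Subtype.ext rfl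
    rw [e]; exact hinv _ ha2
  | mul a b _ _ ha hb =>
    obtain ⟨ha1, ha2⟩ := ha
    obtain ⟨hb1, hb2⟩ := hb
    refine ⟨mul_mem ha1 hb1, ?_⟩
    have e : (⟨a * b, mul_mem ha1 hb1⟩ : FF N) = ⟨a, ha1⟩ * ⟨b, hb1⟩ := Subtype.ext rfl
    rw [e]; exact hmul _ _ ha2 hb2

/-- Two ring homomorphisms out of the modular function field which agree on constants and on the
`j(q^d)` are equal. -/
theorem FF_ringHom_ext (N : ℕ) {E : Type*} [Field E] {φ ψ : FF N →+* E}
    (hc : ∀ a : Kb, φ (algebraMap Kb (FF N) a) = ψ (algebraMap Kb (FF N) a))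
    (hj : ∀ (d : ℕ) [NeZero d] (hd : d ∣ N), φ (jd N d hd) = ψ (jd N d hd)) : φ = ψ := by
  ext x
  induction x using FF_induction with
  | hc a => exact hc a
  | hj d hd => exact hj d hd
  | hadd x y hx hy => rw [map_add, map_add, hx, hy]
  | hneg x hx => rw [map_neg, map_neg, hx]
  | hmul x y hx hy => rw [map_mul, map_mul, hx, hy]
  | hinv x hx => rw [map_inv₀, map_inv₀, hx]

/-- A ring homomorphism out of the modular function field takes values in a subfield as soon as
it does so on constants and on the `j(q^d)`. -/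
theorem FF_map_mem (N : ℕ) {E : Type*} [Field E] (φ : FF N →+* E) (S : Subfield E)
    (hc : ∀ a : Kb, φ (algebraMap Kb (FF N) a) ∈ S)
    (hj : ∀ (d : ℕ) [NeZero d] (hd : d ∣ N), φ (jd N d hd) ∈ S) (x : FF N) : φ x ∈ S := by
  induction x using FF_induction with
  | hc a => exact hc a
  | hj d hd => exact hj d hd
  | hadd x y hx hy => rw [map_add]; exact add_mem hx hy
  | hneg x hx => rw [map_neg]; exact neg_mem hx
  | hmul x y hx hy => rw [map_mul]; exact mul_mem hx hy
  | hinv x hx => rw [map_inv₀]; exact inv_mem hx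

theorem jdL_eq (d : ℕ) [NeZero d] : jdL d = jqNModC Kb d := by
  rw [jdL, coeffEmb, ← coeffMap_jqNModC (algebraMap ℚ Kb) d]
  rfl

theorem coe_jF' (N : ℕ) : ((jF N : FF N) : LaurentSeries Kb) = jqModC Kb := by
  rw [jF, coe_jd, jdL_eq, jqNModC_one]

/-- `j` is transcendental over any coefficient field. -/
theorem transcendental_jqModC (L : Type*) [Field L] : Transcendental L (jqModC L) := by
  rw [transcendental_iff]
  intro p hp
  by_contra hp0
  have h := congrArg (fun s : LaurentSeries L => s.coeff (-(p.natDegree : ℤ))) hp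
  simp only [HahnSeries.coeff_zero] at h
  rw [Polynomial.aeval_eq_sum_range, HahnSeries.coeff_sum, Finset.sum_range_succ] at h
  simp only [Algebra.smul_def, LaurentSeries.algebraMap_apply, HahnSeries.C_mul_eq_smul,
    HahnSeries.coeff_smul, Algebra.algebraMap_self, RingHom.id_apply] at h
  rw [coeff_jqModC_pow_self, Finset.sum_eq_zero] at h
  · simp at h
    exact hp0 h
  · intro i hi
    rw [coeff_jqModC_pow_of_lt, mul_zero]
    have := Finset.mem_range.mp hi
    omega

theorem transcendental_jF (N : ℕ) : Transcendental Kb (jF N) := by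
  have h := transcendental_jqModC Kb
  rw [← coe_jF' N] at h
  intro hh
  exact h (IsAlgebraic.algHom (mffC N).val hh)

end Fermat.Agent.ES.C
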