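import Fermat.Agent.ES.C.Gen
import Fermat.Agent.S24.Psi

/-!
# ES (copy of S24/Psi with constant field `ℂ`) : the embedding `Psi : FF N →+* Mer`
-/

set_option autoImplicit false

open UpperHalfPlane ModularForm Filter ModularCurve
open scoped MatrixGroups Manifold

namespace Fermat.Agent.ES.C

open Fermat.Agent.S24 hiding Kb FF jdL jdL_mem jd coe_jd jF coe_jF FF_induction FF_ringHom_ext FF_map_mem jdL_eq coe_jF' transcendental_jF iotaC iotaL iotaL_apply iotaL_const iotaL_jd iotaL_mem_range Psi1 niceToLaurent_Psi1 Psi1_const Psi1_jd Psi Psi_apply Psi_const Psi_jd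

/-- The identity of `ℂ` (plays the role of the embedding `ℚ̄ → ℂ`). -/
noncomputable def iotaC : Kb →+* ℂ := RingHom.id ℂ

/-- The coefficientwise embedding `FF N → ℂ((X))`. -/
noncomputable def iotaL (N : ℕ) : FF N →+* LaurentSeries ℂ :=
  (coeffMap iotaC).comp (algebraMap (FF N) (LaurentSeries Kb))

lemma iotaL_apply (N : ℕ) (x : FF N) : iotaL N x = coeffMap iotaC (x : LaurentSeries Kb) := rfl

lemma iotaL_const (N : ℕ) (a : Kb) :
    iotaL N (algebraMap Kb (FF N) a) = HahnSeries.C (iotaC a) := by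
  rw [iotaL_apply]
  have : ((algebraMap Kb (FF N) a : FF N) : LaurentSeries Kb)
      = algebraMap Kb (LaurentSeries Kb) a := rfl
  rw [this, algebraMap_laurentSeries_eq_single, coeffMap_single]
  rfl

lemma iotaL_jd (N d : ℕ) [NeZero d] (hd : d ∣ N) : iotaL N (jd N d hd) = jqNModC ℂ d := by
  rw [iotaL_apply, coe_jd, jdL_eq, coeffMap_jqNModC]

lemma iotaL_mem_range (N : ℕ) (x : FF N) : iotaL N x ∈ (niceToLaurent 1).fieldRange := by
  refine FF_map_mem N (iotaL N) _ ?_ ?_ x
  · intro a
    exact ⟨_, (niceToLaurent_const 1 (iotaC a)).trans (iotaL_const N a).symm⟩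
  · intro d _ hd
    exact ⟨_, (niceToLaurent_jdFrac d).trans (iotaL_jd N d hd).symm⟩

/-- The embedding of the modular function field in `Frac (nice 1)`, inverse to `q`-expansion. -/
noncomputable def Psi1 (N : ℕ) : FF N →+* FractionRing (nice 1) :=
  factorThrough (niceToLaurent 1) (iotaL N) (iotaL_mem_range N)

lemma niceToLaurent_Psi1 (N : ℕ) (x : FF N) : niceToLaurent 1 (Psi1 N x) = iotaL N x :=
  factorThrough_spec _ _ _ _

lemma Psi1_const (N : ℕ) (a : Kb) :
    Psi1 N (algebraMap Kb (FF N) a) = toFr 1 (algebraMap ℂ (nice 1) (iotaC a)) :=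
  (niceToLaurent 1).injective (by
    rw [niceToLaurent_Psi1, iotaL_const, niceToLaurent_const])

lemma Psi1_jd (N d : ℕ) [NeZero d] (hd : d ∣ N) : Psi1 N (jd N d hd) = jdFrac d :=
  (niceToLaurent 1).injective (by rw [niceToLaurent_Psi1, iotaL_jd, niceToLaurent_jdFrac])

/-- The embedding of the modular function field into meromorphic functions on `ℍ`. -/
noncomputable def Psi (N : ℕ) : FF N →+* Mer := (niceToMer 1).comp (Psi1 N)

lemma Psi_apply (N : ℕ) (x : FF N) : Psi N x = niceToMer 1 (Psi1 N x) := rfl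

lemma Psi_const (N : ℕ) (a : Kb) :
    Psi N (algebraMap Kb (FF N) a) = toMer (algebraMap ℂ Hol (iotaC a)) := by
  rw [Psi_apply, Psi1_const, toFr, niceToMer_algebraMap, AlgHom.commutes]

lemma Psi_jd (N d : ℕ) [NeZero d] (hd : d ∣ N) : Psi N (jd N d hd) = toMer (jdHol d) := by
  rw [Psi_apply, Psi1_jd, jdFrac, map_div₀, map_pow, toFr, toFr, niceToMer_algebraMap,
    niceToMer_algebraMap]
  have hD : toMer (niceIncl 1 (scale d Dn)) ≠ 0 := by
    intro h
    have h2 : niceIncl 1 (scale d Dn) = 0 := toMer_injective (by rw [h]; exact (map_zero _).symm)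
    have h3 : scale d Dn = 0 := niceIncl_injective 1 (by rw [h2, map_zero])
    exact Dn_ne_zero (scale_injective d (by rw [h3, map_zero]))
  rw [div_eq_iff hD]
  unfold toMer
  rw [← map_pow, ← map_mul]
  congr 1
  apply Subtype.ext
  funext τ
  simp only [Subalgebra.coe_pow, Subalgebra.coe_mul, Pi.pow_apply, Pi.mul_apply, coe_niceIncl,
    jdHol_apply, scale, utNice_apply, E4n, Dn, jfun]
  rw [div_mul_cancel₀ _ (discriminant_ne_zero _)]

end Fermat.Agent.ES.C
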