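import Fermat.Agent.ES.C.Psi
import Fermat.Agent.S24.Sigma

/-!
# ES (copy of S24/Sigma with constant field `ℂ`) : the conjugate embeddings `sigma g : FF N →+* Mer`
-/

set_option autoImplicit false

open UpperHalfPlane ModularForm Filter ModularCurve Topology
open scoped MatrixGroups Manifold

namespace Fermat.Agent.ES.C

open Fermat.Agent.S24 hiding Kb FF jdL jdL_mem jd coe_jd jF coe_jF FF_induction FF_ringHom_ext FF_map_mem jdL_eq coe_jF' transcendental_jF iotaC iotaL iotaL_apply iotaL_const iotaL_jd iotaL_mem_range Psi1 niceToLaurent_Psi1 Psi1_const Psi1_jd Psi Psi_apply Psi_const Psi_jd sigma sigma_apply sigma_one sigma_mul sigma_mul_apply sigma_const sigma_jd sigma_mul_of_mem mem_Gamma0_of_sigma_jd_eq sigma_eq_iff sigmaQ sigmaQ_mk sigmaQ_injective sigmaQ_smul sigmaQ_const sigma_jF sigmaQ_jF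

open Fermat.Agent.S23.Prim Matrix.SpecialLinearGroup

/-- `sigma g f = (Psi f) ∘ g⁻¹`. -/
noncomputable def sigma (N : ℕ) (g : SL(2, ℤ)) : FF N →+* Mer := (act g).comp (Psi N)

lemma sigma_apply (N : ℕ) (g : SL(2, ℤ)) (x : FF N) : sigma N g x = act g (Psi N x) := rfl

lemma sigma_one (N : ℕ) : sigma N 1 = Psi N := by
  rw [sigma, act_one, RingHom.id_comp]

lemma sigma_mul (N : ℕ) (g g' : SL(2, ℤ)) : sigma N (g * g') = (act g).comp (sigma N g') := by
  rw [sigma, act_mul, sigma, RingHom.comp_assoc]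

lemma sigma_mul_apply (N : ℕ) (g g' : SL(2, ℤ)) (x : FF N) :
    sigma N (g * g') x = act g (sigma N g' x) := by
  rw [sigma_mul]; rfl

lemma sigma_const (N : ℕ) (g : SL(2, ℤ)) (a : Kb) :
    sigma N g (algebraMap Kb (FF N) a) = toMer (algebraMap ℂ Hol (iotaC a)) := by
  rw [sigma_apply, Psi_const, act_toMer, AlgHom.commutes]

lemma sigma_jd (N : ℕ) (g : SL(2, ℤ)) (d : ℕ) [NeZero d] (hd : d ∣ N) :
    sigma N g (jd N d hd) = toMer (actHol g (jdHol d)) := by
  rw [sigma_apply, Psi_jd, act_toMer]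

/-- `sigma` only depends on the coset `g Γ₀(N)`. -/
theorem sigma_mul_of_mem (N : ℕ) (g h : SL(2, ℤ)) (hh : h ∈ CongruenceSubgroup.Gamma0 N) :
    sigma N (g * h) = sigma N g := by
  apply FF_ringHom_ext
  · intro a
    rw [sigma_const, sigma_const]
  · intro d _ hd
    rw [sigma_jd, sigma_jd]
    apply congrArg toMer
    apply Subtype.ext
    funext τ
    rw [actHol_apply, actHol_apply, mul_inv_rev, mul_smul]
    exact jdHol_smul d h⁻¹ (Gamma0_le_of_dvd hd (inv_mem hh)) _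

/-- The stabiliser of `j(Nτ)` is contained in `Γ₀(N)`. -/
theorem mem_Gamma0_of_sigma_jd_eq (N : ℕ) [NeZero N] (γ : SL(2, ℤ))
    (h : sigma N γ (jd N N dvd_rfl) = Psi N (jd N N dvd_rfl)) :
    γ ∈ CongruenceSubgroup.Gamma0 N := by
  rw [sigma_jd, Psi_jd] at h
  have h1 : ∀ τ : ℍ, (jdHol N : ℍ → ℂ) (γ⁻¹ • τ) = (jdHol N : ℍ → ℂ) τ := fun τ =>
    congrFun (congrArg Subtype.val (toMer_injective h)) τ
  obtain ⟨δ, a, b, d, ha, hd, had, hdvd, hmat⟩ := exists_decomp N γ⁻¹
  have hN : (0 : ℝ) < (N : ℝ) := by exact_mod_cast Nat.pos_of_ne_zero (NeZero.ne N)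
  have h2 : ∀ τ : ℍ, jfun (upperTriangularGL (a : ℝ) b d (mul_pos ha hd).ne' • τ)
      = jfun (upperTriangularGL (N : ℝ) 0 1 (mul_pos hN one_pos).ne' • τ) := by
    intro τ
    have e1 := h1 τ
    rw [jdHol_apply', jdHol_apply'] at e1
    have e2 : Dm N • (γ⁻¹ • τ) = (Dm N * mapGL ℝ γ⁻¹) • τ := by rw [mul_smul]; rfl
    rw [e2, hmat, mul_smul, jfun_mapGL_smul] at e1
    exact e1
  have h3 := ratio_eq_of_jfun_eq ha hd hN one_pos h2
  have hd1 : d = 1 := by
    have hd0 : (d : ℝ) ≠ 0 := hd.ne'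
    have e : (a : ℝ) = N * d := by
      field_simp at h3
      linarith
    have e' : (a : ℝ) * d = N := by exact_mod_cast had
    rw [e] at e'
    have e3 : (d : ℝ) * d = 1 := by
      have : (N : ℝ) * ((d : ℝ) * d) = N * 1 := by linarith
      exact mul_left_cancel₀ hN.ne' this
    have e4 : d * d = 1 := by exact_mod_cast e3
    have hdpos : 0 < d := by exact_mod_cast hd
    nlinarith
  have haN : a = N := by rw [hd1, mul_one] at had; exact had
  have : γ⁻¹ ∈ CongruenceSubgroup.Gamma0 N := by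
    rw [CongruenceSubgroup.Gamma0_mem, ZMod.intCast_zmod_eq_zero_iff_dvd, ← haN]
    exact hdvd
  simpa using inv_mem this

/-- `sigma g = sigma g'` iff `g` and `g'` define the same coset of `Γ₀(N)`. -/
theorem sigma_eq_iff (N : ℕ) [NeZero N] (g g' : SL(2, ℤ)) :
    sigma N g = sigma N g' ↔ g⁻¹ * g' ∈ CongruenceSubgroup.Gamma0 N := by
  constructor
  · intro h
    apply mem_Gamma0_of_sigma_jd_eq
    rw [sigma_mul_apply, ← h, ← sigma_mul_apply, inv_mul_cancel, sigma_one]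
  · intro h
    have := sigma_mul_of_mem N g _ h
    rw [mul_inv_cancel_left] at this
    exact this.symm

/-- The conjugate embeddings indexed by the coset space. -/
noncomputable def sigmaQ (N : ℕ) (c : SL(2, ℤ) ⧸ CongruenceSubgroup.Gamma0 N) : FF N →+* Mer :=
  sigma N c.out

lemma sigmaQ_mk (N : ℕ) (g : SL(2, ℤ)) :
    sigmaQ N (g : SL(2, ℤ) ⧸ CongruenceSubgroup.Gamma0 N) = sigma N g := by
  obtain ⟨h, hh⟩ := QuotientGroup.mk_out_eq_mul (CongruenceSubgroup.Gamma0 N) g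
  rw [sigmaQ, hh]
  exact sigma_mul_of_mem N g h h.2

theorem sigmaQ_injective (N : ℕ) [NeZero N] : Function.Injective (sigmaQ N) := by
  intro c c' h
  induction c using QuotientGroup.induction_on with
  | H g =>
    induction c' using QuotientGroup.induction_on with
    | H g' =>
      rw [sigmaQ_mk, sigmaQ_mk, sigma_eq_iff] at h
      exact QuotientGroup.eq.mpr h

theorem sigmaQ_smul (N : ℕ) (s : SL(2, ℤ)) (c : SL(2, ℤ) ⧸ CongruenceSubgroup.Gamma0 N)
    (x : FF N) : sigmaQ N (s • c) x = act s (sigmaQ N c x) := by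
  induction c using QuotientGroup.induction_on with
  | H g =>
    rw [MulAction.Quotient.smul_coe, smul_eq_mul, sigmaQ_mk, sigmaQ_mk, sigma_mul_apply]

lemma sigmaQ_const (N : ℕ) (c : SL(2, ℤ) ⧸ CongruenceSubgroup.Gamma0 N) (a : Kb) :
    sigmaQ N c (algebraMap Kb (FF N) a) = toMer (algebraMap ℂ Hol (iotaC a)) :=
  sigma_const N _ a

lemma sigma_jF (N : ℕ) (g : SL(2, ℤ)) : sigma N g (jF N) = toMer jHol := by
  rw [jF, sigma_jd]
  apply congrArg toMer
  apply Subtype.ext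
  funext τ
  rw [actHol_apply, jdHol_apply']
  have : Dm 1 • (g⁻¹ • τ) = g⁻¹ • τ := by
    apply UpperHalfPlane.ext
    rw [coe_Dm_smul]
    simp
  rw [this, jfun_smul]
  rfl

lemma sigmaQ_jF (N : ℕ) (c : SL(2, ℤ) ⧸ CongruenceSubgroup.Gamma0 N) :
    sigmaQ N c (jF N) = toMer jHol := sigma_jF N _

end Fermat.Agent.ES.C
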